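import Mathlib

/-!
# Row LT, tower T2, leaf T2.07.32 (`SubCartanInf429`): Cartan decomposition at infinity (helper555)

OFF-MAIN.  Imports Mathlib only.  Nothing is assumed, no opaque constant, no placeholder proof.

* `svd555`: over `𝕜 = ℝ` or `ℂ`, every invertible square matrix is `k₁ * diagonal d * k₂` with
  `k₁`, `k₂` unitary and `d` real and positive (singular value decomposition via the spectral
  theorem for the positive definite matrix `gᴴ * g`).
* `subCartanInf_core555`: the literal statement of `SubCartanInf429`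
  (`origin/helper429@dcf706097 Fermat/Agent/LT/T2/H429/OpsSpec.lean`): `GL₂(ℂ) = U(2) A U(2)`,
  and for a matrix with real entries the two unitary factors can be taken in `SO(2)` and the
  diagonal part real.
-/

set_option autoImplicit false

open Matrix
open scoped ComplexOrder

noncomputable section

namespace Fermat.Agent.LT.T2.H555

/-- Spectral decomposition of `gᴴ * g` for invertible `g`, with the dependencies cut. -/
theorem spectral555 {𝕜 : Type*} [RCLike 𝕜] {n : Type*} [Fintype n] [DecidableEq n]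
    (g : Matrix n n 𝕜) (hg : g.det ≠ 0) :
    ∃ (U : Matrix n n 𝕜) (ev : n → ℝ), Uᴴ * U = 1 ∧ (∀ i, 0 < ev i) ∧
      gᴴ * g = U * Matrix.diagonal (fun i => ((ev i : ℝ) : 𝕜)) * Uᴴ := by
  have hinj : Function.Injective g.mulVec := by
    rw [Matrix.mulVec_injective_iff_isUnit, Matrix.isUnit_iff_isUnit_det]
    exact isUnit_iff_ne_zero.mpr hg
  have hA : (gᴴ * g).IsHermitian := Matrix.isHermitian_conjTranspose_mul_self g
  have hpd : (gᴴ * g).PosDef := Matrix.PosDef.conjTranspose_mul_self g hinj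
  refine ⟨(hA.eigenvectorUnitary : Matrix n n 𝕜), hA.eigenvalues, ?_,
    fun i => hpd.eigenvalues_pos i, ?_⟩
  · have := Matrix.UnitaryGroup.star_mul_self hA.eigenvectorUnitary
    rwa [Matrix.star_eq_conjTranspose] at this
  · have h := hA.spectral_theorem
    rw [Unitary.conjStarAlgAut_apply, Matrix.star_eq_conjTranspose] at h
    exact h

/-- Singular value decomposition of an invertible square matrix over `ℝ` or `ℂ`. -/
theorem svd555 {𝕜 : Type*} [RCLike 𝕜] {n : Type*} [Fintype n] [DecidableEq n]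
    (g : Matrix n n 𝕜) (hg : g.det ≠ 0) :
    ∃ (k₁ k₂ : Matrix n n 𝕜) (d : n → ℝ),
      k₁ * k₁.conjTranspose = 1 ∧ k₂ * k₂.conjTranspose = 1 ∧ (∀ i, 0 < d i) ∧
      g = k₁ * Matrix.diagonal (fun i => ((d i : ℝ) : 𝕜)) * k₂ := by
  obtain ⟨U, ev, hUU, hpos, hspec⟩ := spectral555 g hg
  have hUU' : U * Uᴴ = 1 := mul_eq_one_comm.mp hUU
  set d : n → ℝ := fun i => Real.sqrt (ev i) with hd
  have hdpos : ∀ i, 0 < d i := fun i => Real.sqrt_pos.mpr (hpos i)
  have hdd : ∀ i, d i * d i = ev i := fun i => Real.mul_self_sqrt (hpos i).le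
  set D : Matrix n n 𝕜 := Matrix.diagonal (fun i => ((d i : ℝ) : 𝕜)) with hD
  set Di : Matrix n n 𝕜 := Matrix.diagonal (fun i => (((d i)⁻¹ : ℝ) : 𝕜)) with hDi
  have hDiD : Di * D = 1 := by
    rw [hDi, hD, Matrix.diagonal_mul_diagonal, ← Matrix.diagonal_one]
    congr 1
    funext i
    rw [← RCLike.ofReal_mul, inv_mul_cancel₀ (hdpos i).ne', RCLike.ofReal_one]
  have hDiH : Diᴴ = Di := by
    rw [hDi, Matrix.diagonal_conjTranspose]
    congr 1
    funext i
    simp
  have hDLD : Di * Matrix.diagonal (fun i => ((ev i : ℝ) : 𝕜)) * Di = 1 := by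
    rw [hDi, Matrix.diagonal_mul_diagonal, Matrix.diagonal_mul_diagonal, ← Matrix.diagonal_one]
    congr 1
    funext i
    rw [← hdd i, ← RCLike.ofReal_mul, ← RCLike.ofReal_mul, ← RCLike.ofReal_one]
    congr 1
    have := (hdpos i).ne'
    field_simp
  refine ⟨g * U * Di, Uᴴ, d, ?_, ?_, hdpos, ?_⟩
  · apply mul_eq_one_comm.mp
    rw [Matrix.conjTranspose_mul, Matrix.conjTranspose_mul, hDiH]
    calc Di * (Uᴴ * gᴴ) * (g * U * Di)
        = Di * (Uᴴ * (gᴴ * g) * U) * Di := by simp only [Matrix.mul_assoc]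
      _ = Di * ((Uᴴ * U) * Matrix.diagonal (fun i => ((ev i : ℝ) : 𝕜)) * (Uᴴ * U))
            * Di := by rw [hspec]; simp only [Matrix.mul_assoc]
      _ = 1 := by rw [hUU, Matrix.one_mul, Matrix.mul_one, hDLD]
  · rw [Matrix.conjTranspose_conjTranspose]
    exact hUU
  · calc g = g * (U * Uᴴ) := by rw [hUU', Matrix.mul_one]
      _ = g * U * (Di * D) * Uᴴ := by rw [hDiD, Matrix.mul_one, Matrix.mul_assoc]
      _ = g * U * Di * D * Uᴴ := by simp only [Matrix.mul_assoc]

/-- A real matrix with `K * Kᴴ = 1` has determinant of square one. -/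
theorem det_sq555 {n : Type*} [Fintype n] [DecidableEq n] (K : Matrix n n ℝ)
    (h : K * Kᴴ = 1) : K.det * K.det = 1 := by
  have h' := congrArg Matrix.det h
  rw [Matrix.det_mul, Matrix.det_conjTranspose, Matrix.det_one] at h'
  simpa using h'

/-- The sign matrix `diagonal ![1, e]` with `e * e = 1` is an involution. -/
theorem sign_mul_self555 (e : ℝ) (he : e * e = 1) :
    (Matrix.diagonal ![1, e] : Matrix (Fin 2) (Fin 2) ℝ) * Matrix.diagonal ![1, e] = 1 := by
  rw [Matrix.diagonal_mul_diagonal, ← Matrix.diagonal_one]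
  congr 1
  funext i
  fin_cases i
  · simp
  · simp [he]

theorem sign_conjTranspose555 (e : ℝ) :
    (Matrix.diagonal ![1, e] : Matrix (Fin 2) (Fin 2) ℝ)ᴴ = Matrix.diagonal ![1, e] := by
  rw [Matrix.diagonal_conjTranspose, star_trivial]

theorem sign_det555 (e : ℝ) :
    (Matrix.diagonal ![1, e] : Matrix (Fin 2) (Fin 2) ℝ).det = e := by
  rw [Matrix.det_diagonal, Fin.prod_univ_two]
  simp

/-- Real singular value decomposition of an invertible real `2 × 2` matrix with both orthogonal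
factors of determinant one: `GL₂(ℝ) = SO(2) · A · SO(2)` with `A` the real diagonal matrices. -/
theorem svdReal555 (G : Matrix (Fin 2) (Fin 2) ℝ) (hG : G.det ≠ 0) :
    ∃ (k₁ k₂ : Matrix (Fin 2) (Fin 2) ℝ) (a b : ℝ),
      k₁ * k₁ᴴ = 1 ∧ k₂ * k₂ᴴ = 1 ∧ k₁.det = 1 ∧ k₂.det = 1 ∧
      G = k₁ * Matrix.diagonal ![a, b] * k₂ := by
  obtain ⟨K₁, K₂, d, h₁, h₂, -, hG'⟩ := svd555 G hG
  have e₁ := det_sq555 K₁ h₁
  have e₂ := det_sq555 K₂ h₂
  have hmid : (Matrix.diagonal ![1, K₁.det] : Matrix (Fin 2) (Fin 2) ℝ)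
      * Matrix.diagonal ![d 0, K₁.det * d 1 * K₂.det] * Matrix.diagonal ![1, K₂.det]
      = Matrix.diagonal (fun i => ((d i : ℝ) : ℝ)) := by
    rw [Matrix.diagonal_mul_diagonal, Matrix.diagonal_mul_diagonal]
    congr 1
    funext i
    fin_cases i
    · simp
    · simp only [Fin.mk_one, Fin.isValue, Matrix.cons_val_one, Matrix.cons_val_fin_one]
      calc K₁.det * (K₁.det * d 1 * K₂.det) * K₂.det
          = (K₁.det * K₁.det) * d 1 * (K₂.det * K₂.det) := by ring
        _ = d 1 := by rw [e₁, e₂, one_mul, mul_one]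
  refine ⟨K₁ * Matrix.diagonal ![1, K₁.det], Matrix.diagonal ![1, K₂.det] * K₂, d 0,
    K₁.det * d 1 * K₂.det, ?_, ?_, ?_, ?_, ?_⟩
  · rw [Matrix.conjTranspose_mul, sign_conjTranspose555]
    calc K₁ * Matrix.diagonal ![1, K₁.det] * (Matrix.diagonal ![1, K₁.det] * K₁ᴴ)
        = K₁ * (Matrix.diagonal ![1, K₁.det] * Matrix.diagonal ![1, K₁.det]) * K₁ᴴ := by
          simp only [Matrix.mul_assoc]
      _ = 1 := by rw [sign_mul_self555 _ e₁, Matrix.mul_one, h₁]
  · rw [Matrix.conjTranspose_mul, sign_conjTranspose555]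
    calc Matrix.diagonal ![1, K₂.det] * K₂ * (K₂ᴴ * Matrix.diagonal ![1, K₂.det])
        = Matrix.diagonal ![1, K₂.det] * (K₂ * K₂ᴴ) * Matrix.diagonal ![1, K₂.det] := by
          simp only [Matrix.mul_assoc]
      _ = 1 := by rw [h₂, Matrix.mul_one, sign_mul_self555 _ e₂]
  · rw [Matrix.det_mul, sign_det555, e₁]
  · rw [Matrix.det_mul, sign_det555, e₂]
  · calc G = K₁ * Matrix.diagonal (fun i => ((d i : ℝ) : ℝ)) * K₂ := hG'
      _ = K₁ * (Matrix.diagonal ![1, K₁.det] * Matrix.diagonal ![d 0, K₁.det * d 1 * K₂.det]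
            * Matrix.diagonal ![1, K₂.det]) * K₂ := by rw [hmid]
      _ = K₁ * Matrix.diagonal ![1, K₁.det] * Matrix.diagonal ![d 0, K₁.det * d 1 * K₂.det]
            * (Matrix.diagonal ![1, K₂.det] * K₂) := by simp only [Matrix.mul_assoc]

/-- Complexification of real matrices commutes with the conjugate transpose. -/
theorem map_conjTranspose555 {n : Type*} (K : Matrix n n ℝ) :
    (K.map Complex.ofRealHom)ᴴ = Kᴴ.map Complex.ofRealHom := by
  ext i j
  simp [Matrix.conjTranspose_apply]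

/-- **T2.07.32** (`SubCartanInf429`, literal statement): `GL₂(ℂ) = U(2) · A · U(2)`; for a matrix
with real entries the unitary factors can be taken real of determinant one and the diagonal part
real. -/
theorem subCartanInf_core555 :
    ∀ g : Matrix (Fin 2) (Fin 2) ℂ, g.det ≠ 0 →
      ∃ k₁ k₂ : Matrix (Fin 2) (Fin 2) ℂ, ∃ a b : ℂ,
        k₁ * k₁.conjTranspose = 1 ∧ k₂ * k₂.conjTranspose = 1 ∧
        g = k₁ * Matrix.diagonal ![a, b] * k₂ ∧
        ((∀ i j, (g i j).im = 0) →
          (∀ i j, (k₁ i j).im = 0) ∧ (∀ i j, (k₂ i j).im = 0) ∧ k₁.det = 1 ∧ k₂.det = 1 ∧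
            a.im = 0 ∧ b.im = 0) := by
  intro g hg
  by_cases hreal : ∀ i j, (g i j).im = 0
  · -- real case
    set G : Matrix (Fin 2) (Fin 2) ℝ := fun i j => (g i j).re with hGdef
    have hgG : g = G.map Complex.ofRealHom := by
      ext i j
      apply Complex.ext
      · rw [Matrix.map_apply]
        exact (Complex.ofReal_re _).symm
      · rw [Matrix.map_apply]
        exact (hreal i j).trans (Complex.ofReal_im _).symm
    have hdet : g.det = ((G.det : ℝ) : ℂ) := by
      have h := RingHom.map_det Complex.ofRealHom G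
      rw [RingHom.mapMatrix_apply] at h
      rw [hgG]
      exact h.symm
    have hG : G.det ≠ 0 := by
      intro h0
      apply hg
      rw [hdet, h0, Complex.ofReal_zero]
    obtain ⟨K₁, K₂, a, b, h₁, h₂, hd₁, hd₂, hGK⟩ := svdReal555 G hG
    have hmapdet : ∀ K : Matrix (Fin 2) (Fin 2) ℝ, K.det = 1 →
        (K.map Complex.ofRealHom).det = 1 := by
      intro K hK
      have h := RingHom.map_det Complex.ofRealHom K
      rw [RingHom.mapMatrix_apply] at h
      rw [← h, hK, map_one]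
    have hmapun : ∀ K : Matrix (Fin 2) (Fin 2) ℝ, K * Kᴴ = 1 →
        K.map Complex.ofRealHom * (K.map Complex.ofRealHom)ᴴ = 1 := by
      intro K hK
      rw [map_conjTranspose555, ← Matrix.map_mul, hK]
      exact Matrix.map_one _ (map_zero _) (map_one _)
    have hdiag : (Matrix.diagonal ![a, b] : Matrix (Fin 2) (Fin 2) ℝ).map Complex.ofRealHom
        = Matrix.diagonal ![(a : ℂ), (b : ℂ)] := by
      rw [Matrix.diagonal_map (map_zero _)]
      congr 1
      funext i
      fin_cases i <;> simp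
    refine ⟨K₁.map Complex.ofRealHom, K₂.map Complex.ofRealHom, (a : ℂ), (b : ℂ),
      hmapun K₁ h₁, hmapun K₂ h₂, ?_, fun _ => ⟨?_, ?_, hmapdet K₁ hd₁, hmapdet K₂ hd₂, ?_, ?_⟩⟩
    · rw [hgG, hGK, Matrix.map_mul, Matrix.map_mul, hdiag]
    · intro i j; simp
    · intro i j; simp
    · simp
    · simp
  · -- general case: the last clause is vacuous
    obtain ⟨k₁, k₂, d, h₁, h₂, -, hgk⟩ := svd555 g hg
    refine ⟨k₁, k₂, ((d 0 : ℝ) : ℂ), ((d 1 : ℝ) : ℂ), h₁, h₂, ?_, fun h => absurd h hreal⟩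
    have hfun : (fun i => ((d i : ℝ) : ℂ)) = ![((d 0 : ℝ) : ℂ), ((d 1 : ℝ) : ℂ)] := by
      funext i
      fin_cases i <;> simp
    rw [← hfun]
    exact hgk

end Fermat.Agent.LT.T2.H555
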