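import Fermat.Agent.LT.T2.H429.OpsSpec
import Fermat.Agent.LT.T2.H555.CartanInf

/-!
# Row LT, tower T2, leaf T2.07.32: `SubCartanInf429` (helper555)

OFF-MAIN.  Adapter: the Prop `SubCartanInf429` of helper429's `OpsSpec.lean` (byte-identical copy,
sha256 657e0d9a) is proved by `subCartanInf_core555` (`CartanInf.lean`, Mathlib only).
-/

set_option autoImplicit false

namespace Fermat.Agent.LT.T2.H555

/-- **T2.07.32**: `SubCartanInf429` holds. -/
theorem subCartanInf555 : Fermat.Agent.LT.T2.H429.SubCartanInf429 :=
  subCartanInf_core555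

end Fermat.Agent.LT.T2.H555
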